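/-
Elementary facts about the Frey curve of a Frey package:
divisibility, integral model, invariants, discriminant, semistability.
-/
import Mathlib
import Fermat.Prelude.Def_FLTPrelim_FreyPackage
import Fermat.Prelude.Def_FLTPrelim_Modularity

set_option autoImplicit false

namespace Fermat.Agent.FreyLib

open FreyPackage WeierstrassCurve

variable (P : FreyPackage)

/-- `b` is even. -/
theorem two_dvd_b : (2 : ℤ) ∣ P.b :=
  (ZMod.intCast_zmod_eq_zero_iff_dvd P.b 2).1 P.hb2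

/-- `a ≡ 3 mod 4`. -/
theorem a_emod_four : P.a % 4 = 3 := by
  have h := P.ha4
  have h3 : ((3 : ℤ) : ZMod 4) = 3 := by norm_num
  rw [← h3] at h
  have := (ZMod.intCast_eq_intCast_iff_dvd_sub P.a 3 4).1 h
  push_cast at this
  omega

theorem a_odd : ¬ (2 : ℤ) ∣ P.a := by
  have := a_emod_four P
  omega

/-- `a ^ p ≡ 3 mod 4` since `p` is odd. -/
theorem a_pow_emod_four : P.a ^ P.p % 4 = 3 := by
  obtain ⟨k, hk⟩ := P.hp_odd
  have h1 : P.a ^ P.p ≡ 3 ^ P.p [ZMOD 4] := by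
    apply Int.ModEq.pow
    have := a_emod_four P
    exact this
  have h2 : (3 : ℤ) ^ P.p ≡ 3 [ZMOD 4] := by
    rw [hk, pow_succ, pow_mul]
    have h9 : (3 : ℤ) ^ 2 ≡ 1 [ZMOD 4] := by decide
    calc (3 ^ 2) ^ k * 3 ≡ 1 ^ k * 3 [ZMOD 4] := (h9.pow k).mul_right 3
      _ = 3 := by simp
  exact (h1.trans h2)

/-- `32 ∣ b ^ p` since `b` is even and `p ≥ 5`. -/
theorem thirtytwo_dvd_b_pow : (32 : ℤ) ∣ P.b ^ P.p := by
  have h2 : (2 : ℤ) ^ 5 ∣ P.b ^ 5 := pow_dvd_pow_of_dvd (two_dvd_b P) 5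
  have h5 : P.b ^ 5 ∣ P.b ^ P.p := pow_dvd_pow P.b P.hp5
  have : (32 : ℤ) = 2 ^ 5 := by norm_num
  rw [this]
  exact h2.trans h5

theorem four_dvd_a₂_num : (4 : ℤ) ∣ P.b ^ P.p - 1 - P.a ^ P.p := by
  have h1 := a_pow_emod_four P
  have h2 := thirtytwo_dvd_b_pow P
  omega

theorem sixteen_dvd_a₄_num : (16 : ℤ) ∣ -(P.a ^ P.p) * (P.b ^ P.p) := by
  have h2 := thirtytwo_dvd_b_pow P
  have : (16 : ℤ) ∣ P.b ^ P.p := Dvd.dvd.trans (by norm_num) h2
  exact Dvd.dvd.mul_left this _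

theorem four_mul_a₂ : 4 * P.freyCurveInt.a₂ = P.b ^ P.p - 1 - P.a ^ P.p := by
  show 4 * ((P.b ^ P.p - 1 - P.a ^ P.p) / 4) = _
  exact Int.mul_ediv_cancel' (four_dvd_a₂_num P)

theorem sixteen_mul_a₄ : 16 * P.freyCurveInt.a₄ = -(P.a ^ P.p) * (P.b ^ P.p) := by
  show 16 * (-(P.a ^ P.p) * (P.b ^ P.p) / 16) = _
  exact Int.mul_ediv_cancel' (sixteen_dvd_a₄_num P)

@[simp] theorem freyCurveInt_a₁ : P.freyCurveInt.a₁ = 1 := rfl
@[simp] theorem freyCurveInt_a₃ : P.freyCurveInt.a₃ = 0 := rfl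
@[simp] theorem freyCurveInt_a₆ : P.freyCurveInt.a₆ = 0 := rfl

/-- The integral Frey curve base-changes to the rational Frey curve. -/
theorem freyCurveInt_map : P.freyCurveInt.map (Int.castRingHom ℚ) = P.freyCurve := by
  have h2 := four_mul_a₂ P
  have h4 := sixteen_mul_a₄ P
  have h2' : (4 : ℚ) * (P.freyCurveInt.a₂ : ℚ) = (P.b : ℚ) ^ P.p - 1 - (P.a : ℚ) ^ P.p := by
    exact_mod_cast h2
  have h4' : (16 : ℚ) * (P.freyCurveInt.a₄ : ℚ) = -((P.a : ℚ) ^ P.p) * ((P.b : ℚ) ^ P.p) := by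
    exact_mod_cast h4
  ext
  · simp [freyCurve]
  · simp only [map_a₂, eq_intCast, freyCurve]
    rw [eq_div_iff (by norm_num : (4 : ℚ) ≠ 0), mul_comm]
    exact h2'
  · simp [freyCurve]
  · simp only [map_a₄, eq_intCast, freyCurve]
    rw [eq_div_iff (by norm_num : (16 : ℚ) ≠ 0), mul_comm]
    exact h4'
  · simp [freyCurve]

/-- The integral Frey curve is an integral model of the rational Frey curve. -/
theorem freyCurveInt_isIntegralModelOf : P.freyCurveInt.IsIntegralModelOf P.freyCurve :=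
  ⟨1, by rw [one_smul, freyCurveInt_map]⟩

theorem freyCurveInt_b₂ : P.freyCurveInt.b₂ = P.b ^ P.p - P.a ^ P.p := by
  have h2 := four_mul_a₂ P
  simp only [WeierstrassCurve.b₂, freyCurveInt_a₁]
  linarith

theorem eight_mul_b₄ : 8 * P.freyCurveInt.b₄ = -(P.a ^ P.p) * (P.b ^ P.p) := by
  have h4 := sixteen_mul_a₄ P
  simp only [WeierstrassCurve.b₄, freyCurveInt_a₁, freyCurveInt_a₃]
  linarith

theorem freyCurveInt_b₆ : P.freyCurveInt.b₆ = 0 := by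
  simp [WeierstrassCurve.b₆]

theorem freyCurveInt_b₈ : P.freyCurveInt.b₈ = - P.freyCurveInt.a₄ ^ 2 := by
  simp [WeierstrassCurve.b₈]

/-- `c₄ = a^{2p} + a^p b^p + b^{2p}`. -/
theorem freyCurveInt_c₄ :
    P.freyCurveInt.c₄ = (P.a ^ P.p) ^ 2 + P.a ^ P.p * P.b ^ P.p + (P.b ^ P.p) ^ 2 := by
  have h2 := freyCurveInt_b₂ P
  have h4 := eight_mul_b₄ P
  simp only [WeierstrassCurve.c₄, h2]
  linear_combination (-3 : ℤ) * h4

/-- `256 Δ = (a^p b^p c^p)^2`. -/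
theorem freyCurveInt_Δ_mul :
    256 * P.freyCurveInt.Δ = (P.a ^ P.p * P.b ^ P.p * P.c ^ P.p) ^ 2 := by
  have h2 := freyCurveInt_b₂ P
  have h4 := sixteen_mul_a₄ P
  have hb4 : P.freyCurveInt.b₄ = 2 * P.freyCurveInt.a₄ := by
    simp [WeierstrassCurve.b₄]
  have hFLT := P.hFLT
  simp only [WeierstrassCurve.Δ, h2, hb4, freyCurveInt_b₆ P, freyCurveInt_b₈ P, ← hFLT]
  set A := P.a ^ P.p
  set B := P.b ^ P.p
  set x := P.freyCurveInt.a₄
  have hx : A * B = -16 * x := by linarith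
  have : (A * B * (A + B)) ^ 2 = (A * B) ^ 2 * ((B - A) ^ 2 + 4 * (A * B)) := by ring
  rw [this, hx]
  ring

theorem freyCurveInt_Δ_ne_zero : P.freyCurveInt.Δ ≠ 0 := by
  intro h
  have := freyCurveInt_Δ_mul P
  rw [h, mul_zero] at this
  have h0 : P.a ^ P.p * P.b ^ P.p * P.c ^ P.p ≠ 0 :=
    mul_ne_zero (mul_ne_zero (pow_ne_zero _ P.ha0) (pow_ne_zero _ P.hb0)) (pow_ne_zero _ P.hc0)
  exact (pow_ne_zero 2 h0) this.symm

/-- A prime dividing the discriminant of the integral Frey curve divides `abc`. -/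
theorem dvd_abc_of_dvd_Δ {q : ℕ} (hq : q.Prime) (h : (q : ℤ) ∣ P.freyCurveInt.Δ) :
    (q : ℤ) ∣ P.a * P.b * P.c := by
  have hq' : Prime (q : ℤ) := Nat.prime_iff_prime_int.mp hq
  have h1 : (q : ℤ) ∣ (P.a ^ P.p * P.b ^ P.p * P.c ^ P.p) ^ 2 := by
    rw [← freyCurveInt_Δ_mul P]
    exact Dvd.dvd.mul_left h _
  have h2 : (q : ℤ) ∣ P.a ^ P.p * P.b ^ P.p * P.c ^ P.p := hq'.dvd_of_dvd_pow h1
  rw [← mul_pow, ← mul_pow] at h2
  exact hq'.dvd_of_dvd_pow h2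

/-- `2` divides the discriminant of the integral Frey curve. -/
theorem two_dvd_Δ : (2 : ℤ) ∣ P.freyCurveInt.Δ := by
  have h := freyCurveInt_Δ_mul P
  obtain ⟨k, hk⟩ := thirtytwo_dvd_b_pow P
  rw [hk] at h
  have : P.freyCurveInt.Δ = 2 * (2 * (P.a ^ P.p * k * P.c ^ P.p) ^ 2) := by
    have h' : 256 * P.freyCurveInt.Δ = 256 * (2 * (2 * (P.a ^ P.p * k * P.c ^ P.p) ^ 2)) := by
      rw [h]; ring
    exact mul_left_cancel₀ (by norm_num) h'
  exact ⟨_, this⟩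

/-- An odd prime dividing `abc` divides the discriminant of the integral Frey curve. -/
theorem dvd_Δ_of_dvd_abc {q : ℕ} (hq : q.Prime) (h : (q : ℤ) ∣ P.a * P.b * P.c) :
    (q : ℤ) ∣ P.freyCurveInt.Δ := by
  have hq' : Prime (q : ℤ) := Nat.prime_iff_prime_int.mp hq
  rcases hq.eq_two_or_odd' with rfl | hodd
  · exact_mod_cast two_dvd_Δ P
  · have h1 : (q : ℤ) ∣ 256 * P.freyCurveInt.Δ := by
      rw [freyCurveInt_Δ_mul P, ← mul_pow, ← mul_pow]
      exact Dvd.dvd.trans (Dvd.dvd.trans h (dvd_pow_self _ P.hp0)) (dvd_pow_self _ two_ne_zero)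
    rcases hq'.dvd_or_dvd h1 with h2 | h2
    · exfalso
      have h3 : (q : ℤ) ∣ 2 ^ 8 := by norm_num; exact h2
      have h4 : (q : ℤ) ∣ 2 := hq'.dvd_of_dvd_pow h3
      have h5 : q ∣ 2 := by exact_mod_cast h4
      have h6 : q = 2 := (Nat.prime_dvd_prime_iff_eq hq Nat.prime_two).1 h5
      rw [h6] at hodd
      exact absurd hodd (by decide)
    · exact h2

theorem dvd_Δ_iff_dvd_abc {q : ℕ} (hq : q.Prime) :
    (q : ℤ) ∣ P.freyCurveInt.Δ ↔ (q : ℤ) ∣ P.a * P.b * P.c :=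
  ⟨dvd_abc_of_dvd_Δ P hq, dvd_Δ_of_dvd_abc P hq⟩

private theorem not_dvd_of_gcd_eq_one {x y : ℤ} (h : gcd x y = 1) {q : ℤ} (hq : Prime q)
    (hx : q ∣ x) (hy : q ∣ y) : False := by
  have : q ∣ gcd x y := dvd_gcd hx hy
  rw [h] at this
  exact hq.not_dvd_one this

/-- The integral Frey curve is semistable: no prime divides both `Δ` and `c₄`. -/
theorem freyCurveInt_isSemistableModel : P.freyCurveInt.IsSemistableModel := by
  intro q hq hΔ hc4
  have hq' : Prime (q : ℤ) := Nat.prime_iff_prime_int.mp hq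
  have habc := dvd_abc_of_dvd_Δ P hq hΔ
  rw [freyCurveInt_c₄] at hc4
  set A := P.a ^ P.p
  set B := P.b ^ P.p
  have hC : P.c ^ P.p = A + B := P.hFLT.symm
  rcases hq'.dvd_or_dvd habc with hab | hc
  · rcases hq'.dvd_or_dvd hab with ha | hb
    · -- q ∣ a, so q ∣ B ^ 2, so q ∣ b
      have hA : (q : ℤ) ∣ A := Dvd.dvd.trans ha (dvd_pow_self _ P.hp0)
      have hB2 : (q : ℤ) ∣ B ^ 2 := by
        have : B ^ 2 = (A ^ 2 + A * B + B ^ 2) - A * (A + B) := by ring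
        rw [this]
        exact dvd_sub hc4 (Dvd.dvd.mul_right hA _)
      have hb : (q : ℤ) ∣ P.b := hq'.dvd_of_dvd_pow (hq'.dvd_of_dvd_pow hB2)
      exact not_dvd_of_gcd_eq_one P.hgcdab hq' ha hb
    · have hB : (q : ℤ) ∣ B := Dvd.dvd.trans hb (dvd_pow_self _ P.hp0)
      have hA2 : (q : ℤ) ∣ A ^ 2 := by
        have : A ^ 2 = (A ^ 2 + A * B + B ^ 2) - B * (A + B) := by ring
        rw [this]
        exact dvd_sub hc4 (Dvd.dvd.mul_right hB _)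
      have ha : (q : ℤ) ∣ P.a := hq'.dvd_of_dvd_pow (hq'.dvd_of_dvd_pow hA2)
      exact not_dvd_of_gcd_eq_one P.hgcdab hq' ha hb
  · have hCd : (q : ℤ) ∣ A + B := by
      rw [← hC]; exact Dvd.dvd.trans hc (dvd_pow_self _ P.hp0)
    have hA2 : (q : ℤ) ∣ A ^ 2 := by
      have : A ^ 2 = (A ^ 2 + A * B + B ^ 2) - B * (A + B) := by ring
      rw [this]
      exact dvd_sub hc4 (Dvd.dvd.mul_left hCd _)
    have ha : (q : ℤ) ∣ P.a := hq'.dvd_of_dvd_pow (hq'.dvd_of_dvd_pow hA2)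
    exact not_dvd_of_gcd_eq_one P.hgcdac hq' ha hc

end Fermat.Agent.FreyLib
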