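/-
Conditional reductions for the Frey curve: modularity of the integral Frey curve at (exact)
conductor level implies that the mod-`p` representation is modular of a conductor level.
-/
import Mathlib
import Fermat.Prelude.Def_FLTPrelim_FreyPackage
import Fermat.Prelude.Def_FLTPrelim_Modularity
import Fermat.Prelude.Def_FLTPrelim_ModularRep
import Fermat.Prelude.Def_FreyPackage_IsConductorLevel
import Fermat.Prelude.Def_WeierstrassCurve_Mlc1RowStatement
import Fermat.Agent.Lib.Frey.Basic

set_option autoImplicit false

namespace Fermat.Agent.FreyLib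

open FreyPackage WeierstrassCurve

variable (P : FreyPackage)

/-- If an integral model `W` of the Frey curve is modular of level `N`, then the mod-`p`
representation is modular of level `N` (equality of `a_ℓ` implies congruence). -/
theorem modularRepOfLevel_of_isModularModelOfLevel {N : ℕ} (W : WeierstrassCurve ℤ)
    (hW : W.IsIntegralModelOf P.freyCurve) (h : W.IsModularModelOfLevel N) :
    P.ModularRepOfLevel N := by
  obtain ⟨f, hf, hcoeff⟩ := h
  obtain ⟨𝔪, h𝔪, hp𝔪⟩ := FLTPrelim.exists_maximalIdeal_natCast_prime_mem P.pp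
  refine ⟨f, W, 𝔪, hf, hW, h𝔪, hp𝔪, ?_⟩
  intro ℓ hℓ hgood hℓN _
  refine ⟨((W.apOfModel ℓ : ℤ) : integralClosure ℤ ℂ), ?_, ?_⟩
  · rw [hcoeff ℓ hℓ hgood hℓN]
    simp
  · rw [sub_self]
    exact 𝔪.zero_mem

/-- A positive squarefree level whose prime divisors are bad primes of the integral Frey curve
is a conductor level. -/
theorem isConductorLevel_of_support {N : ℕ} (hN : 0 < N) (hsq : Squarefree N)
    (h : ∀ q : ℕ, q.Prime → q ∣ N → (q : ℤ) ∣ P.freyCurveInt.Δ) : P.IsConductorLevel N :=
  ⟨hN, hsq, fun q hq hqN => dvd_abc_of_dvd_Δ P hq (h q hq hqN)⟩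

/-- The reduction of S06 to modularity of the integral Frey curve at exact conductor level. -/
theorem exists_conductorLevel_modularRep_of_exact
    (H : Mlc1IsModularModelOfExactConductorLevel P.freyCurveInt) :
    ∃ N : ℕ, P.IsConductorLevel N ∧ P.ModularRepOfLevel N := by
  obtain ⟨N, hN, hsq, hsupp, hmod⟩ := H
  exact ⟨N, isConductorLevel_of_support P hN hsq (fun q hq hqN => (hsupp q hq).1 hqN),
    modularRepOfLevel_of_isModularModelOfLevel P _ (freyCurveInt_isIntegralModelOf P) hmod⟩

/-- The Frey curve is modular as soon as its integral model is modular at exact conductor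
level. -/
theorem freyCurve_isModular_of_exact
    (H : Mlc1IsModularModelOfExactConductorLevel P.freyCurveInt) :
    P.freyCurve.IsModular := by
  obtain ⟨N, hN, -, -, hmod⟩ := H
  exact ⟨P.freyCurveInt, freyCurveInt_isIntegralModelOf P, N, hN, hmod⟩

end Fermat.Agent.FreyLib
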